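import Mathlib

/-!
# MOONSHOT S19, (R1): a Hopf algebra from a point-separated algebra of functions on a group
(helper5; Mathlib only)

`Λ` a commutative ring, `Ω` a commutative `Λ`-algebra, `M` a commutative `Λ`-algebra with a family
of `Ω`-points `pt v : M →ₐ[Λ] Ω` indexed by an additive group `V`, which separates the elements of
`M`, `M ⊗ M` and `M ⊗ (M ⊗ M)`.  If `M` carries algebra maps `comul' : M → M ⊗ M`,
`counit' : M → Λ`, `anti' : M → M` which on points are the addition, the zero and the negation of
`V`, then `M` is a cocommutative Hopf algebra and `v ↦ pt v` is multiplicative for the convolution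
product (`FunHopfData.hopfAlgebra`, `FunHopfData.isCocomm`, `FunHopfData.convMul_pt`).

No Hopf algebra is assumed to exist beforehand: this is the tool which turns an *order of functions*
`H ⊆ (V → Ω)` closed under `f ↦ ((v, w) ↦ f (v + w))` into a Hopf algebra over `Λ`.
-/

set_option autoImplicit false
set_option linter.unusedSectionVars false
set_option linter.style.haveILetI false

namespace Fermat.Agent.FF2.Order

open TensorProduct

variable {Λ : Type*} [CommRing Λ] {Ω : Type*} [CommRing Ω] [Algebra Λ Ω]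
variable {M : Type*} [CommRing M] [Algebra Λ M]

/-- Evaluation of a tensor at a pair of points. -/
noncomputable def pt₂ (x y : M →ₐ[Λ] Ω) : M ⊗[Λ] M →ₐ[Λ] Ω :=
  Algebra.TensorProduct.lift x y (fun _ _ => Commute.all _ _)

@[simp] theorem pt₂_tmul (x y : M →ₐ[Λ] Ω) (a b : M) : pt₂ x y (a ⊗ₜ[Λ] b) = x a * y b := by
  simp [pt₂]

/-- Evaluation of a triple tensor at a triple of points. -/
noncomputable def pt₃ (x y z : M →ₐ[Λ] Ω) : M ⊗[Λ] (M ⊗[Λ] M) →ₐ[Λ] Ω :=
  Algebra.TensorProduct.lift x (pt₂ y z) (fun _ _ => Commute.all _ _)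

@[simp] theorem pt₃_tmul (x y z : M →ₐ[Λ] Ω) (a : M) (t : M ⊗[Λ] M) :
    pt₃ x y z (a ⊗ₜ[Λ] t) = x a * pt₂ y z t := by
  simp [pt₃]

theorem pt₂_comm (x y : M →ₐ[Λ] Ω) (t : M ⊗[Λ] M) :
    pt₂ x y (TensorProduct.comm Λ M M t) = pt₂ y x t := by
  induction t using TensorProduct.induction_on with
  | zero => simp
  | tmul a b => simp [mul_comm]
  | add s t hs ht => simp only [map_add, hs, ht]

/-- `pt₃` after reassociating `(t ⊗ c)`. -/
theorem pt₃_assoc_tmul (x y z : M →ₐ[Λ] Ω) (t : M ⊗[Λ] M) (c : M) :
    pt₃ x y z (Algebra.TensorProduct.assoc Λ Λ Λ M M M (t ⊗ₜ[Λ] c)) = pt₂ x y t * z c := by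
  induction t using TensorProduct.induction_on with
  | zero => simp
  | tmul a b => simp [mul_assoc]
  | add s t hs ht => rw [TensorProduct.add_tmul, map_add, map_add, hs, ht, map_add, add_mul]

/-- `pt₃ ∘ assoc ∘ (f ⊗ id) = lift (pt₂ ∘ f) z`. -/
theorem pt₃_assoc_map (x y z : M →ₐ[Λ] Ω) (f : M →ₐ[Λ] M ⊗[Λ] M) (s : M ⊗[Λ] M) :
    pt₃ x y z (Algebra.TensorProduct.assoc Λ Λ Λ M M M
      (Algebra.TensorProduct.map f (AlgHom.id Λ M) s)) = pt₂ ((pt₂ x y).comp f) z s := by
  induction s using TensorProduct.induction_on with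
  | zero => simp
  | tmul a c => simp [pt₃_assoc_tmul]
  | add s t hs ht => simp only [map_add, hs, ht]

/-- `pt₃ ∘ (id ⊗ f) = lift x (pt₂ ∘ f)`. -/
theorem pt₃_map (x y z : M →ₐ[Λ] Ω) (f : M →ₐ[Λ] M ⊗[Λ] M) (s : M ⊗[Λ] M) :
    pt₃ x y z (Algebra.TensorProduct.map (AlgHom.id Λ M) f s) = pt₂ x ((pt₂ y z).comp f) s := by
  induction s using TensorProduct.induction_on with
  | zero => simp
  | tmul a c => simp
  | add s t hs ht => simp only [map_add, hs, ht]

variable (Λ Ω M) in
/-- The data turning an algebra of functions on an additive group into a Hopf algebra. -/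
structure FunHopfData (V : Type*) [AddCommGroup V] where
  /-- the points -/
  pt : V → (M →ₐ[Λ] Ω)
  sep₁ : ∀ a b : M, (∀ v, pt v a = pt v b) → a = b
  sep₂ : ∀ s t : M ⊗[Λ] M, (∀ v w, pt₂ (pt v) (pt w) s = pt₂ (pt v) (pt w) t) → s = t
  sep₃ : ∀ s t : M ⊗[Λ] (M ⊗[Λ] M),
    (∀ u v w, pt₃ (pt u) (pt v) (pt w) s = pt₃ (pt u) (pt v) (pt w) t) → s = t
  /-- the comultiplication -/
  comul' : M →ₐ[Λ] M ⊗[Λ] M
  comul'_spec : ∀ v w m, pt₂ (pt v) (pt w) (comul' m) = pt (v + w) m
  /-- the counit -/
  counit' : M →ₐ[Λ] Λ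
  counit'_spec : ∀ m, algebraMap Λ Ω (counit' m) = pt 0 m
  /-- the antipode -/
  anti' : M →ₐ[Λ] M
  anti'_spec : ∀ v m, pt v (anti' m) = pt (-v) m

namespace FunHopfData

variable {V : Type*} [AddCommGroup V] (D : FunHopfData Λ Ω M V)

theorem comul'_comp (v w : V) : (pt₂ (D.pt v) (D.pt w)).comp D.comul' = D.pt (v + w) :=
  AlgHom.ext (D.comul'_spec v w)

/-- The bialgebra structure. -/
@[instance_reducible]
noncomputable def bialgebra : Bialgebra Λ M :=
  Bialgebra.ofAlgHom D.comul' D.counit'
    (by
      refine AlgHom.ext fun m => D.sep₃ _ _ fun u v w => ?_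
      rw [AlgHom.comp_apply, AlgHom.comp_apply, AlgHom.comp_apply]
      show pt₃ (D.pt u) (D.pt v) (D.pt w) (Algebra.TensorProduct.assoc Λ Λ Λ M M M
        (Algebra.TensorProduct.map D.comul' (AlgHom.id Λ M) (D.comul' m))) = _
      rw [pt₃_assoc_map, pt₃_map, D.comul'_comp, D.comul'_comp, D.comul'_spec, D.comul'_spec,
        add_assoc])
    (by
      refine AlgHom.ext fun m => ?_
      apply (Algebra.TensorProduct.lid Λ M).injective
      show Algebra.TensorProduct.lid Λ M _ =
        Algebra.TensorProduct.lid Λ M ((Algebra.TensorProduct.lid Λ M).symm m)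
      rw [AlgEquiv.apply_symm_apply]
      refine D.sep₁ _ _ fun v => ?_
      have key : ∀ s : M ⊗[Λ] M, D.pt v (Algebra.TensorProduct.lid Λ M
          (Algebra.TensorProduct.map D.counit' (AlgHom.id Λ M) s))
            = pt₂ (D.pt 0) (D.pt v) s := by
        intro s
        induction s using TensorProduct.induction_on with
        | zero => simp
        | tmul a b =>
          simp only [Algebra.TensorProduct.map_tmul, AlgHom.coe_id, id_eq,
            Algebra.TensorProduct.lid_tmul, pt₂_tmul]
          rw [Algebra.smul_def, map_mul, AlgHom.commutes, D.counit'_spec]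
        | add s t hs ht => simp only [map_add, hs, ht]
      rw [AlgHom.comp_apply, key, D.comul'_spec, zero_add])
    (by
      refine AlgHom.ext fun m => ?_
      apply (Algebra.TensorProduct.rid Λ Λ M).injective
      show Algebra.TensorProduct.rid Λ Λ M _ =
        Algebra.TensorProduct.rid Λ Λ M ((Algebra.TensorProduct.rid Λ Λ M).symm m)
      rw [AlgEquiv.apply_symm_apply]
      refine D.sep₁ _ _ fun v => ?_
      have key : ∀ s : M ⊗[Λ] M, D.pt v (Algebra.TensorProduct.rid Λ Λ M
          (Algebra.TensorProduct.map (AlgHom.id Λ M) D.counit' s))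
            = pt₂ (D.pt v) (D.pt 0) s := by
        intro s
        induction s using TensorProduct.induction_on with
        | zero => simp
        | tmul a b =>
          simp only [Algebra.TensorProduct.map_tmul, AlgHom.coe_id, id_eq,
            Algebra.TensorProduct.rid_tmul, pt₂_tmul]
          rw [Algebra.smul_def, map_mul, AlgHom.commutes, D.counit'_spec, mul_comm]
        | add s t hs ht => simp only [map_add, hs, ht]
      rw [AlgHom.comp_apply, key, D.comul'_spec, add_zero])

theorem comul_eq (m : M) :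
    letI := D.bialgebra
    Coalgebra.comul (R := Λ) m = D.comul' m := rfl

theorem counit_eq (m : M) :
    letI := D.bialgebra
    Coalgebra.counit (R := Λ) m = D.counit' m := rfl

/-- The Hopf algebra structure. -/
@[instance_reducible]
noncomputable def hopfAlgebra : HopfAlgebra Λ M :=
  letI := D.bialgebra
  HopfAlgebra.ofAlgHom D.anti'
    (by
      refine AlgHom.ext fun m => D.sep₁ _ _ fun v => ?_
      have key : ∀ s : M ⊗[Λ] M, D.pt v (Algebra.TensorProduct.lift D.anti' (AlgHom.id Λ M)
          (fun _ _ => Commute.all _ _) s) = pt₂ (D.pt (-v)) (D.pt v) s := by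
        intro s
        induction s using TensorProduct.induction_on with
        | zero => simp
        | tmul a b => simp [D.anti'_spec]
        | add s t hs ht => simp only [map_add, hs, ht]
      rw [AlgHom.comp_apply, AlgHom.comp_apply, key, Bialgebra.comulAlgHom_apply, D.comul_eq,
        D.comul'_spec, neg_add_cancel, Bialgebra.counitAlgHom_apply, D.counit_eq,
        Algebra.ofId_apply, AlgHom.commutes, D.counit'_spec])
    (by
      refine AlgHom.ext fun m => D.sep₁ _ _ fun v => ?_
      have key : ∀ s : M ⊗[Λ] M, D.pt v (Algebra.TensorProduct.lift (AlgHom.id Λ M) D.anti'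
          (fun _ _ => Commute.all _ _) s) = pt₂ (D.pt v) (D.pt (-v)) s := by
        intro s
        induction s using TensorProduct.induction_on with
        | zero => simp
        | tmul a b => simp [D.anti'_spec]
        | add s t hs ht => simp only [map_add, hs, ht]
      rw [AlgHom.comp_apply, AlgHom.comp_apply, key, Bialgebra.comulAlgHom_apply, D.comul_eq,
        D.comul'_spec, add_neg_cancel, Bialgebra.counitAlgHom_apply, D.counit_eq,
        Algebra.ofId_apply, AlgHom.commutes, D.counit'_spec])

/-- The Hopf algebra is cocommutative. -/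
theorem isCocomm :
    letI := D.bialgebra
    Coalgebra.IsCocomm Λ M := by
  letI := D.bialgebra
  refine ⟨?_⟩
  apply LinearMap.ext
  intro m
  refine D.sep₂ _ _ fun v w => ?_
  rw [LinearMap.comp_apply, LinearEquiv.coe_coe, pt₂_comm, D.comul_eq, D.comul'_spec,
    D.comul'_spec, add_comm]

/-- The convolution product of two of the given points is the point of the sum. -/
theorem convMul_pt (v w : V) :
    letI := D.bialgebra
    (WithConv.toConv (D.pt v) * WithConv.toConv (D.pt w) : WithConv (M →ₐ[Λ] Ω))
      = WithConv.toConv (D.pt (v + w)) := by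
  letI := D.bialgebra
  apply WithConv.ofConv_injective
  refine AlgHom.ext fun m => ?_
  have h := AlgHom.convMul_apply (WithConv.toConv (D.pt v)) (WithConv.toConv (D.pt w)) m
  rw [WithConv.ofConv_toConv, WithConv.ofConv_toConv, D.comul_eq] at h
  exact h.trans (D.comul'_spec v w m)

/-- The unit of the convolution product is the point `0`. -/
theorem convOne_pt :
    letI := D.bialgebra
    (1 : WithConv (M →ₐ[Λ] Ω)) = WithConv.toConv (D.pt 0) := by
  letI := D.bialgebra
  apply WithConv.ofConv_injective
  refine AlgHom.ext fun m => ?_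
  have h := AlgHom.convOne_apply (R := Λ) (A := Ω) (C := M) m
  rw [D.counit_eq, D.counit'_spec] at h
  exact h

end FunHopfData

end Fermat.Agent.FF2.Order
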