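import Mathlib
import Fermat.Agent.FF2.Order.FunHopf

/-!
# MOONSHOT S19, (R1): separation of tensors by pairs and triples of points (helper5; Mathlib only)

`Λ` a domain, `Ω` a field containing it, `M` a `Λ`-algebra with a finite `Λ`-basis `b` and points
`pt v : M →ₐ[Λ] Ω` (`v : V`) such that the functions `v ↦ pt v (b i)` are `Ω`-linearly independent.
Then the elements of `M ⊗ M` and of `M ⊗ (M ⊗ M)` are separated by pairs and triples of points
(`sep₂_of_linearIndependent`, `sep₃_of_linearIndependent`).
-/

set_option autoImplicit false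
set_option linter.unusedSectionVars false

namespace Fermat.Agent.FF2.Order

open TensorProduct

section Fun

variable {Ω : Type*} [Field Ω]

/-- Products of two linearly independent finite families of functions are linearly independent
functions on the product. -/
theorem linearIndependent_mul_fun {ι κ X Y : Type*} [Fintype ι] [Fintype κ]
    (f : ι → X → Ω) (g : κ → Y → Ω) (hf : LinearIndependent Ω f) (hg : LinearIndependent Ω g) :
    LinearIndependent Ω (fun p : ι × κ => fun xy : X × Y => f p.1 xy.1 * g p.2 xy.2) := by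
  classical
  rw [Fintype.linearIndependent_iff] at hf hg ⊢
  intro c hc p
  have h1 : ∀ (y : Y) (i : ι), ∑ j, c (i, j) * g j y = 0 := by
    intro y
    apply hf (fun i => ∑ j, c (i, j) * g j y)
    funext x
    have h2 := congrFun hc (x, y)
    simp only [Finset.sum_apply, Pi.smul_apply, smul_eq_mul, Pi.zero_apply] at h2 ⊢
    rw [Fintype.sum_prod_type] at h2
    rw [← h2]
    refine Finset.sum_congr rfl fun i _ => ?_
    rw [Finset.sum_mul]
    refine Finset.sum_congr rfl fun j _ => ?_
    ring
  obtain ⟨i, j⟩ := p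
  apply hg (fun j => c (i, j))
  funext y
  simp only [Finset.sum_apply, Pi.smul_apply, smul_eq_mul, Pi.zero_apply]
  exact h1 y i

end Fun

section Inj

variable {Λ : Type*} [CommRing Λ] {Ω : Type*} [Field Ω] [Algebra Λ Ω] [FaithfulSMul Λ Ω]

/-- A `Λ`-linear map into an `Ω`-vector space is injective as soon as it maps a finite `Λ`-basis to
an `Ω`-linearly independent family. -/
theorem injective_of_linearIndependent {ι N F : Type*} [Fintype ι] [AddCommGroup N] [Module Λ N]
    [AddCommGroup F] [Module Ω F] [Module Λ F] [IsScalarTower Λ Ω F]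
    (b : Module.Basis ι Λ N) (e : N →ₗ[Λ] F) (h : LinearIndependent Ω (fun i => e (b i))) :
    Function.Injective e := by
  classical
  rw [injective_iff_map_eq_zero]
  intro n hn
  rw [Fintype.linearIndependent_iff] at h
  have h1 : ∑ i, algebraMap Λ Ω (b.repr n i) • e (b i) = 0 := by
    rw [← hn]
    conv_rhs => rw [← b.sum_repr n, map_sum]
    refine Finset.sum_congr rfl fun i _ => ?_
    rw [map_smul, algebraMap_smul]
  have h2 := h (fun i => algebraMap Λ Ω (b.repr n i)) h1
  apply b.repr.injective
  ext i
  rw [map_zero, Finsupp.zero_apply]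
  exact (map_eq_zero_iff _ (FaithfulSMul.algebraMap_injective Λ Ω)).mp (h2 i)

end Inj

section Sep

variable {Λ : Type*} [CommRing Λ] {Ω : Type*} [Field Ω] [Algebra Λ Ω] [FaithfulSMul Λ Ω]
variable {M : Type*} [CommRing M] [Algebra Λ M] {V : Type*}

/-- Evaluation of a tensor at all pairs of points, as a linear map. -/
noncomputable def evalTwo (pt : V → (M →ₐ[Λ] Ω)) : M ⊗[Λ] M →ₗ[Λ] (V × V → Ω) :=
  LinearMap.pi fun p => (pt₂ (pt p.1) (pt p.2)).toLinearMap

@[simp] theorem evalTwo_apply (pt : V → (M →ₐ[Λ] Ω)) (t : M ⊗[Λ] M) (p : V × V) :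
    evalTwo pt t p = pt₂ (pt p.1) (pt p.2) t := rfl

/-- Evaluation of a triple tensor at all triples of points, as a linear map. -/
noncomputable def evalThree (pt : V → (M →ₐ[Λ] Ω)) :
    M ⊗[Λ] (M ⊗[Λ] M) →ₗ[Λ] (V × (V × V) → Ω) :=
  LinearMap.pi fun p => (pt₃ (pt p.1) (pt p.2.1) (pt p.2.2)).toLinearMap

@[simp] theorem evalThree_apply (pt : V → (M →ₐ[Λ] Ω)) (t : M ⊗[Λ] (M ⊗[Λ] M))
    (p : V × (V × V)) : evalThree pt t p = pt₃ (pt p.1) (pt p.2.1) (pt p.2.2) t := rfl

variable {ι : Type*} [Fintype ι] (b : Module.Basis ι Λ M) (pt : V → (M →ₐ[Λ] Ω))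

theorem linearIndependent_evalTwo
    (h : LinearIndependent Ω (fun i => fun v => pt v (b i))) :
    LinearIndependent Ω (fun p : ι × ι => evalTwo pt ((b.tensorProduct b) p)) := by
  have := linearIndependent_mul_fun _ _ h h
  convert this using 2 with p
  funext xy
  rw [Module.Basis.tensorProduct_apply, evalTwo_apply, pt₂_tmul]

theorem linearIndependent_evalThree
    (h : LinearIndependent Ω (fun i => fun v => pt v (b i))) :
    LinearIndependent Ω
      (fun p : ι × (ι × ι) => evalThree pt ((b.tensorProduct (b.tensorProduct b)) p)) := by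
  have := linearIndependent_mul_fun _ _ h (linearIndependent_evalTwo b pt h)
  convert this using 2 with p
  funext xy
  rw [Module.Basis.tensorProduct_apply, evalThree_apply, pt₃_tmul, evalTwo_apply]

/-- Pairs of points separate `M ⊗ M`. -/
theorem sep₂_of_linearIndependent
    (h : LinearIndependent Ω (fun i => fun v => pt v (b i))) (s t : M ⊗[Λ] M)
    (hst : ∀ v w, pt₂ (pt v) (pt w) s = pt₂ (pt v) (pt w) t) : s = t := by
  apply injective_of_linearIndependent (b.tensorProduct b) (evalTwo pt)
    (linearIndependent_evalTwo b pt h)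
  funext p
  exact hst p.1 p.2

/-- Triples of points separate `M ⊗ (M ⊗ M)`. -/
theorem sep₃_of_linearIndependent
    (h : LinearIndependent Ω (fun i => fun v => pt v (b i))) (s t : M ⊗[Λ] (M ⊗[Λ] M))
    (hst : ∀ u v w, pt₃ (pt u) (pt v) (pt w) s = pt₃ (pt u) (pt v) (pt w) t) : s = t := by
  apply injective_of_linearIndependent (b.tensorProduct (b.tensorProduct b)) (evalThree pt)
    (linearIndependent_evalThree b pt h)
  funext p
  exact hst p.1 p.2.1 p.2.2

end Sep

end Fermat.Agent.FF2.Order
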