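import Mathlib
import Fermat.Agent.FF2.Order.TensorIndep
import Fermat.Agent.TW.Hopf.ClosureSub
import Fermat.Agent.TW.Hopf.PointModel

/-!
# MOONSHOT S19, (R1): the ORDER CRITERION (helper5)

`Λ` a valuation ring, `Ω` a field of characteristic `0` containing it, `φ : G → (Ω →ₐ[Λ] Ω)` a
family of automorphisms whose fixed elements lie in the fraction field of `Λ`, `V` a finite
additive group with operators `act σ`.  A `Λ`-subalgebra `H ⊆ (V → Ω)` which is

* finite as a `Λ`-module,
* made of `φ`-equivariant functions (`h (act σ v) = φ σ (h v)`),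
* point-separating,
* stable under `h ↦ ((v, w) ↦ h (v + w))` (in the sense that this function comes from `H ⊗ H`) and
  under `h ↦ (v ↦ h (-v))`,

is a finite flat commutative cocommutative Hopf algebra over `Λ` whose group of `Ω`-points is `V`,
`φ`-equivariantly: `isFlatRealizable_of_order`, with conclusion main's
`Fermat.Agent.TW.Hopf.Closure.IsFlatRealizable φ act` (the shape of the frozen S19).
No Hopf algebra, no étale algebra `Map_G(V, Ω)` and no integral closure is constructed beforehand.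
-/

set_option autoImplicit false
set_option linter.unusedSectionVars false
set_option linter.style.haveILetI false

namespace Fermat.Agent.FF2.Order

open TensorProduct WithConv Fermat.Agent.TW.Hopf.Closure Fermat.Agent.TW.Hopf.Descent

universe u

section Integral

variable {Λ : Type*} [CommRing Λ] [IsDomain Λ] [ValuationRing Λ]
variable {Ω : Type*} [Field Ω] [Algebra Λ Ω] [FaithfulSMul Λ Ω]

/-- An element of the fraction field of a valuation ring (inside `Ω`) which is integral over it
lies in it. -/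
theorem mem_range_of_isFrac_of_isIntegral {z : Ω} (hz : IsFrac Λ z) (hint : IsIntegral Λ z) :
    z ∈ (algebraMap Λ Ω).range := by
  have hinj := FaithfulSMul.algebraMap_injective Λ Ω
  obtain ⟨a, b, hb, hab⟩ := hz
  have hb' : algebraMap Λ Ω b ≠ 0 := fun h => hb ((map_eq_zero_iff _ hinj).mp h)
  obtain ⟨c, hc | hc⟩ := ValuationRing.cond a b
  · -- `b = a * c`, so `c * z = 1`
    have ha : a ≠ 0 := by
      rintro rfl
      rw [zero_mul] at hc
      exact hb hc.symm
    have ha' : algebraMap Λ Ω a ≠ 0 := fun h => ha ((map_eq_zero_iff _ hinj).mp h)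
    have hcz : algebraMap Λ Ω c * z = 1 := by
      rw [← hc, map_mul, mul_assoc] at hab
      exact mul_left_cancel₀ ha' (by rw [hab, mul_one])
    obtain ⟨p, hp, hpz⟩ := hint
    have hz0 : z ≠ 0 := by
      rintro rfl
      rw [mul_zero] at hcz
      exact zero_ne_one hcz
    letI : Invertible z := invertibleOfNonzero hz0
    have hinv : ⅟z = algebraMap Λ Ω c := by
      rw [invOf_eq_inv]
      exact (eq_inv_of_mul_eq_one_left hcz).symm
    have h1 := Polynomial.eval₂_reverse_mul_pow (algebraMap Λ Ω) z p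
    rw [hpz, hinv] at h1
    have h2 : Polynomial.eval₂ (algebraMap Λ Ω) (algebraMap Λ Ω c) p.reverse = 0 := by
      rcases mul_eq_zero.mp h1 with h | h
      · exact h
      · exact absurd h (pow_ne_zero _ hz0)
    rw [Polynomial.eval₂_at_apply] at h2
    have h3 : p.reverse.eval c = 0 := (map_eq_zero_iff _ hinj).mp h2
    have h4 : p.reverse.coeff 0 = 1 := by
      rw [Polynomial.coeff_zero_reverse]
      exact hp
    have h5 : p.reverse.divX.eval c * c + 1 = 0 := by
      have := congrArg (Polynomial.eval c) (Polynomial.divX_mul_X_add p.reverse)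
      rw [Polynomial.eval_add, Polynomial.eval_mul, Polynomial.eval_X, Polynomial.eval_C, h4,
        h3] at this
      exact this
    have hunit : c * (-(p.reverse.divX.eval c)) = 1 := by linear_combination -h5
    refine ⟨-(p.reverse.divX.eval c), ?_⟩
    have h6 : algebraMap Λ Ω c * algebraMap Λ Ω (-(p.reverse.divX.eval c)) = 1 := by
      rw [← map_mul, hunit, map_one]
    have hc0 : algebraMap Λ Ω c ≠ 0 := by
      intro h
      rw [h, zero_mul] at hcz
      exact zero_ne_one hcz
    exact mul_left_cancel₀ hc0 (by rw [h6, hcz])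
  · -- `a = b * c`
    refine ⟨c, ?_⟩
    rw [← hc, map_mul] at hab
    exact (mul_left_cancel₀ hb' hab).symm

end Integral

section Criterion

variable {Λ : Type*} [CommRing Λ] [IsDomain Λ] [ValuationRing Λ]
variable {Ω : Type u} [Field Ω] [Algebra Λ Ω] [FaithfulSMul Λ Ω] [CharZero Ω]
variable {G : Type*} {φ : G → Ω →ₐ[Λ] Ω}
variable {V : Type u} [AddCommGroup V] [Finite V] {act : G → V → V}

/-- The point of the subalgebra `H ⊆ (V → Ω)` attached to `v : V`. -/
noncomputable def ptH (H : Subalgebra Λ (V → Ω)) (v : V) : H →ₐ[Λ] Ω :=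
  (Pi.evalAlgHom Λ (fun _ : V => Ω) v).comp H.val

@[simp] theorem ptH_apply (H : Subalgebra Λ (V → Ω)) (v : V) (h : H) : ptH H v h = h.1 v := rfl

/-- **The ORDER CRITERION.** -/
theorem isFlatRealizable_of_order (hfrac : FixedIsFrac (Set.range φ))
    (hact : ∀ σ, Function.Surjective (act σ)) (hact0 : ∀ σ, act σ 0 = 0)
    (H : Subalgebra Λ (V → Ω)) (hfin : Module.Finite Λ H)
    (hequiv : ∀ h ∈ H, ∀ σ v, h (act σ v) = φ σ (h v))
    (hsep : ∀ v w : V, (∀ h ∈ H, h v = h w) → v = w)
    (hΔ : ∀ h : H, ∃ t : H ⊗[Λ] H, ∀ v w, pt₂ (ptH H v) (ptH H w) t = h.1 (v + w))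
    (hS : ∀ h ∈ H, (fun v => h (-v)) ∈ H) :
    IsFlatRealizable.{u} φ act := by
  classical
  haveI := hfin
  -- `H` is torsion free, hence free
  haveI : Module.IsTorsionFree Λ H :=
    Function.Injective.moduleIsTorsionFree H.val.toLinearMap Subtype.val_injective
      (fun r m => rfl)
  haveI : Module.Free Λ H := free_of_isTorsionFree _
  haveI : Module.Flat Λ H := flat_of_isTorsionFree _
  set b := Module.Free.chooseBasis Λ H with hb
  -- the point model and descent
  let P : PointModel φ H V :=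
    { ev := H.val
      ev_injective := Subtype.val_injective
      act := act
      act_surjective := hact
      ev_act := fun σ m x => hequiv m.1 m.2 σ x }
  have hindep : LinearIndependent Ω (fun i => fun v => ptH H v (b i)) :=
    P.linearIndependent hfrac b b.linearIndependent
  have sep₁ : ∀ a b' : H, (∀ v, ptH H v a = ptH H v b') → a = b' := fun a b' h =>
    Subtype.ext (funext h)
  have sep₂ := sep₂_of_linearIndependent b (ptH H) hindep
  have sep₃ := sep₃_of_linearIndependent b (ptH H) hindep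
  -- the comultiplication
  let ev₂ : H ⊗[Λ] H →ₐ[Λ] (V × V → Ω) := AlgHom.pi fun p => pt₂ (ptH H p.1) (ptH H p.2)
  have hev₂ : Function.Injective ev₂ := fun s t hst =>
    sep₂ s t fun v w => congrFun hst (v, w)
  let Δ₀ : H →ₐ[Λ] (V × V → Ω) := AlgHom.pi fun p => ptH H (p.1 + p.2)
  have hΔ' : ∀ h, Δ₀ h ∈ ev₂.range := by
    intro h
    obtain ⟨t, ht⟩ := hΔ h
    exact ⟨t, funext fun p => ht p.1 p.2⟩
  let comul' : H →ₐ[Λ] H ⊗[Λ] H :=
    ((AlgEquiv.ofInjective ev₂ hev₂).symm : _ →ₐ[Λ] _).comp (Δ₀.codRestrict ev₂.range hΔ')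
  have hcomul' : ∀ h, ev₂ (comul' h) = Δ₀ h := by
    intro h
    have h1 := AlgEquiv.ofInjective_apply ev₂ hev₂ (comul' h)
    rw [← h1]
    simp [comul']
  -- the counit
  have hε : ∀ h : H, h.1 0 ∈ (algebraMap Λ Ω).range := by
    intro h
    refine mem_range_of_isFrac_of_isIntegral (hfrac _ ?_) ?_
    · rintro _ ⟨σ, rfl⟩
      rw [← hequiv h.1 h.2 σ 0, hact0]
    · have h1 : IsIntegral Λ h := Algebra.IsIntegral.isIntegral h
      exact h1.map (ptH H 0)
  let ε₀ : Λ →ₐ[Λ] Ω := Algebra.ofId Λ Ω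
  have hε₀ : Function.Injective ε₀ := FaithfulSMul.algebraMap_injective Λ Ω
  have hε' : ∀ h, ptH H 0 h ∈ ε₀.range := fun h => hε h
  let counit' : H →ₐ[Λ] Λ :=
    ((AlgEquiv.ofInjective ε₀ hε₀).symm : _ →ₐ[Λ] _).comp ((ptH H 0).codRestrict ε₀.range hε')
  have hcounit' : ∀ h, algebraMap Λ Ω (counit' h) = ptH H 0 h := by
    intro h
    have h1 := AlgEquiv.ofInjective_apply ε₀ hε₀ (counit' h)
    have h2 : ε₀ (counit' h) = algebraMap Λ Ω (counit' h) := rfl
    rw [← h2, ← h1]
    simp [counit']
  -- the antipode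
  let neg₀ : (V → Ω) →ₐ[Λ] (V → Ω) := AlgHom.pi fun v => Pi.evalAlgHom Λ (fun _ : V => Ω) (-v)
  let anti' : H →ₐ[Λ] H := (neg₀.comp H.val).codRestrict H (fun h => hS h.1 h.2)
  -- the Hopf algebra
  let D : FunHopfData Λ Ω H V :=
    { pt := ptH H
      sep₁ := sep₁
      sep₂ := sep₂
      sep₃ := sep₃
      comul' := comul'
      comul'_spec := fun v w m => congrFun (hcomul' m) (v, w)
      counit' := counit'
      counit'_spec := hcounit'
      anti' := anti'
      anti'_spec := fun v m => rfl }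
  letI := D.hopfAlgebra
  haveI : Coalgebra.IsCocomm Λ H := D.isCocomm
  -- the points
  have hsurj : ∀ z : H →ₐ[Λ] Ω, ∃ v, z = ptH H v := by
    intro z
    obtain ⟨v, hv⟩ := P.exists_eq_eval hfrac z
    exact ⟨v, AlgHom.ext hv⟩
  have hinj : Function.Injective (ptH H) := by
    intro v w hvw
    exact hsep v w fun h hh => DFunLike.congr_fun hvw ⟨h, hh⟩
  have hbij : Function.Bijective (fun v : V => (toConv (ptH H v) : WithConv (H →ₐ[Λ] Ω))) := by
    refine ⟨fun v w h => hinj (toConv_injective h), fun z => ?_⟩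
    obtain ⟨v, hv⟩ := hsurj z.ofConv
    refine ⟨v, ?_⟩
    show toConv (ptH H v) = z
    rw [← hv, toConv_ofConv]
  let e₀ : V ≃ WithConv (H →ₐ[Λ] Ω) := Equiv.ofBijective _ hbij
  have he₀ : ∀ v, e₀ v = toConv (ptH H v) := fun v => rfl
  have hsymm : ∀ v, e₀.symm (toConv (ptH H v)) = v := fun v => by
    rw [← he₀, Equiv.symm_apply_apply]
  refine isFlatRealizable_of H e₀.symm ?_ ?_
  · intro f g
    obtain ⟨v, rfl⟩ := e₀.surjective f
    obtain ⟨w, rfl⟩ := e₀.surjective g
    rw [he₀, he₀, D.convMul_pt, hsymm, hsymm, hsymm]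
  · intro σ f
    obtain ⟨v, rfl⟩ := e₀.surjective f
    rw [he₀, ofConv_toConv, hsymm]
    have h1 : (φ σ).comp (ptH H v) = ptH H (act σ v) :=
      AlgHom.ext fun h => (hequiv h.1 h.2 σ v).symm
    rw [h1, hsymm]

end Criterion

end Fermat.Agent.FF2.Order
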