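import Mathlib
import Fermat.Agent.FF2.R2.Delta
import Fermat.Agent.FF2.Order.Criterion

/-!
# MOONSHOT S19, (R1): the ORDER CRITERION in helper22's tensor-free vocabulary (helper5)

`Fermat.Agent.FF2.R2.IsDeltaStable H` (`Δ h ∈ prodAlg H`, no tensor products) implies the
tensor form of `Δ`-stability used by `isFlatRealizable_of_order`.  Two corollaries:

* `isFlatRealizable_of_isDeltaStable` : the order criterion with `IsDeltaStable H` and
  `H.map negHom ≤ H`;
* `isFlatRealizable_of_isDeltaStable_of_add` : **no antipode hypothesis** — a finite, equivariant,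
  point-separating, `Δ`-stable subalgebra suffices when the operators `act σ` are additive
  (one passes to `H ⊔ S(H)`).
-/

set_option autoImplicit false
set_option linter.unusedSectionVars false
set_option linter.style.haveILetI false

namespace Fermat.Agent.FF2.Order

open TensorProduct WithConv Fermat.Agent.TW.Hopf.Closure Fermat.Agent.TW.Hopf.Descent
  Fermat.Agent.FF2.R2

universe u

section Tensor

variable {Λ : Type*} [CommRing Λ] {Ω : Type*} [CommRing Ω] [Algebra Λ Ω]
variable {V : Type*} [AddCommGroup V]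

/-- The point of the subalgebra `H ⊆ (V → Ω)` attached to `v : V` (general coefficients). -/
noncomputable def ptH' (H : Subalgebra Λ (V → Ω)) (v : V) : H →ₐ[Λ] Ω :=
  (Pi.evalAlgHom Λ (fun _ : V => Ω) v).comp H.val

/-- Every element of the span of the elementary products is the function attached to a tensor. -/
theorem exists_tensor_of_mem_span (H : Subalgebra Λ (V → Ω)) {F : V × V → Ω}
    (hF : F ∈ Submodule.span Λ
      {F : V × V → Ω | ∃ h₁ ∈ H, ∃ h₂ ∈ H, F = fun p : V × V => h₁ p.1 * h₂ p.2}) :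
    ∃ t : H ⊗[Λ] H, ∀ v w, pt₂ (ptH' H v) (ptH' H w) t = F (v, w) := by
  induction hF using Submodule.span_induction with
  | mem F hF =>
    obtain ⟨h₁, hh₁, h₂, hh₂, rfl⟩ := hF
    exact ⟨(⟨h₁, hh₁⟩ : H) ⊗ₜ[Λ] (⟨h₂, hh₂⟩ : H), fun v w => by rw [pt₂_tmul]; rfl⟩
  | zero => exact ⟨0, fun v w => by rw [map_zero]; rfl⟩
  | add F₁ F₂ _ _ ih₁ ih₂ =>
    obtain ⟨t₁, h₁⟩ := ih₁
    obtain ⟨t₂, h₂⟩ := ih₂
    exact ⟨t₁ + t₂, fun v w => by rw [map_add, h₁, h₂]; rfl⟩
  | smul r F _ ih =>
    obtain ⟨t, h⟩ := ih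
    exact ⟨r • t, fun v w => by rw [map_smul, h]; rfl⟩

/-- Every element of `prodAlg H` is the function attached to a tensor in `H ⊗ H`. -/
theorem exists_tensor_of_mem_prodAlg (H : Subalgebra Λ (V → Ω)) {F : V × V → Ω}
    (hF : F ∈ prodAlg H) :
    ∃ t : H ⊗[Λ] H, ∀ v w, pt₂ (ptH' H v) (ptH' H w) t = F (v, w) := by
  have hF' : F ∈ Subalgebra.toSubmodule (prodAlg H) := hF
  rw [prodAlg_toSubmodule] at hF'
  exact exists_tensor_of_mem_span H hF'

end Tensor

section Criterion

variable {Λ : Type*} [CommRing Λ] [IsDomain Λ] [ValuationRing Λ]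
variable {Ω : Type u} [Field Ω] [Algebra Λ Ω] [FaithfulSMul Λ Ω] [CharZero Ω]
variable {G : Type*} {φ : G → Ω →ₐ[Λ] Ω}
variable {V : Type u} [AddCommGroup V] [Finite V] {act : G → V → V}

/-- The order criterion, `Δ`-stability in the tensor-free form. -/
theorem isFlatRealizable_of_isDeltaStable (hfrac : FixedIsFrac (Set.range φ))
    (hact : ∀ σ, Function.Surjective (act σ)) (hact0 : ∀ σ, act σ 0 = 0)
    (H : Subalgebra Λ (V → Ω)) (hfin : Module.Finite Λ H)
    (hequiv : ∀ h ∈ H, ∀ σ v, h (act σ v) = φ σ (h v))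
    (hsep : ∀ v w : V, (∀ h ∈ H, h v = h w) → v = w)
    (hΔ : IsDeltaStable H) (hS : H.map (negHom Λ Ω V) ≤ H) :
    IsFlatRealizable.{u} φ act := by
  refine isFlatRealizable_of_order hfrac hact hact0 H hfin hequiv hsep (fun h => ?_)
    (fun h hh => hS ⟨h, hh, rfl⟩)
  obtain ⟨t, ht⟩ := exists_tensor_of_mem_prodAlg H (hΔ h.1 h.2)
  exact ⟨t, fun v w => ht v w⟩

/-- The subalgebra of `φ`-equivariant functions. -/
def equivSub (φ : G → Ω →ₐ[Λ] Ω) (act : G → V → V) : Subalgebra Λ (V → Ω) where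
  carrier := {f | ∀ σ v, f (act σ v) = φ σ (f v)}
  mul_mem' {a b} ha hb σ v := by rw [Pi.mul_apply, Pi.mul_apply, ha σ v, hb σ v, map_mul]
  add_mem' {a b} ha hb σ v := by rw [Pi.add_apply, Pi.add_apply, ha σ v, hb σ v, map_add]
  algebraMap_mem' r σ v := by
    rw [Pi.algebraMap_apply, Pi.algebraMap_apply, AlgHom.commutes]

theorem mem_equivSub {f : V → Ω} :
    f ∈ equivSub φ act ↔ ∀ σ v, f (act σ v) = φ σ (f v) := Iff.rfl

/-- **The order criterion without antipode hypothesis.** -/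
theorem isFlatRealizable_of_isDeltaStable_of_add (hfrac : FixedIsFrac (Set.range φ))
    (hact : ∀ σ, Function.Surjective (act σ))
    (hadd : ∀ σ v w, act σ (v + w) = act σ v + act σ w)
    (H : Subalgebra Λ (V → Ω)) (hfin : Module.Finite Λ H)
    (hequiv : ∀ h ∈ H, ∀ σ v, h (act σ v) = φ σ (h v))
    (hsep : ∀ v w : V, (∀ h ∈ H, h v = h w) → v = w)
    (hΔ : IsDeltaStable H) :
    IsFlatRealizable.{u} φ act := by
  have hact0 : ∀ σ, act σ 0 = 0 := fun σ => by
    have h := hadd σ 0 0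
    rw [add_zero] at h
    exact left_eq_add.mp h
  have hactneg : ∀ σ v, act σ (-v) = -act σ v := fun σ v => by
    have h := hadd σ v (-v)
    rw [add_neg_cancel, hact0] at h
    exact eq_neg_of_add_eq_zero_right h.symm
  haveI := hfin
  have hfg : (Subalgebra.toSubmodule H).FG := Module.Finite.iff_fg.mp hfin
  have hfg' : (Subalgebra.toSubmodule (H.map (negHom Λ Ω V))).FG := by
    rw [Subalgebra.map_toSubmodule]
    exact hfg.map _
  haveI : Module.Finite Λ (H.map (negHom Λ Ω V)) := Module.Finite.iff_fg.mpr hfg'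
  haveI : Module.Finite Λ ↥(H ⊔ H.map (negHom Λ Ω V)) := Subalgebra.finite_sup _ _
  -- equivariance
  have hle : H ⊔ H.map (negHom Λ Ω V) ≤ equivSub φ act := by
    refine sup_le (fun h hh => hequiv h hh) ?_
    rintro _ ⟨h, hh, rfl⟩ σ v
    show h (-act σ v) = φ σ (h (-v))
    rw [← hactneg, hequiv h hh]
  refine isFlatRealizable_of_isDeltaStable hfrac hact hact0 (H ⊔ H.map (negHom Λ Ω V))
    inferInstance (fun h hh => hle hh)
    (fun v w h => hsep v w fun f hf => h f (le_sup_left (a := H) hf))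
    hΔ.sup_map_negHom (map_negHom_sup_map_negHom H).le

end Criterion

end Fermat.Agent.FF2.Order
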