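import Mathlib
import Fermat.Prelude.Def_ModularCurve_ArithmeticGalois
import Fermat.Prelude.Def_GaloisRep_Flat
import Fermat.Agent.FF2.Order.Criterion
import Fermat.Agent.TW.Hopf.DecompRing
import Fermat.Agent.Igusa.ZlDvr

/-!
# MOONSHOT S19: the typed SINK (helper5)

The frozen statement S19 follows from the existence of an *order* in the function model:
a `ℤ_(ℓ)`-subalgebra `H` of `(J₀(p)[ℓ^k] → ℚ̄)` which is finite as a module, `G_ℚ`-equivariant,
point-separating, `Δ`-stable and `S`-stable — provided `J₀(p)[ℓ^k]` is finite.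
-/

set_option autoImplicit false
set_option linter.unusedSectionVars false
set_option linter.style.haveILetI false

namespace Fermat.Agent.FF2.Order

open TensorProduct WithConv ModularCurve Fermat.Agent.TW.Hopf.Closure
  Fermat.Agent.TW.Hopf.Descent Fermat.Agent.TW.Hopf.DecompRing

local notation "Qb" => AlgebraicClosure ℚ
local notation "GQ" => (AlgebraicClosure ℚ ≃ₐ[ℚ] AlgebraicClosure ℚ)

/-- The elements of `ℚ̄` fixed by `G_ℚ` lie in `ℚ = Frac ℤ_(ℓ)`. -/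
theorem fixedIsFrac_globalOp (ℓ : ℕ) : FixedIsFrac (Set.range (globalOp ℓ)) := by
  intro z hz
  have hz' : ∀ σ : GQ, σ z = z := fun σ => hz (globalOp ℓ σ) ⟨σ, rfl⟩
  haveI : IsAlgClosure ℚ Qb := AlgebraicClosure.instIsAlgClosure ℚ
  haveI : IsGalois ℚ Qb := inferInstance
  have hmem : z ∈ (⊥ : IntermediateField ℚ Qb) :=
    (InfiniteGalois.mem_bot_iff_fixed z).mpr hz'
  obtain ⟨q, rfl⟩ := IntermediateField.mem_bot.mp hmem
  refine ⟨(q.num : GaloisRep.ratLocalizedAt ℓ), (q.den : GaloisRep.ratLocalizedAt ℓ), ?_, ?_⟩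
  · intro h
    have h1 := congrArg (fun t : GaloisRep.ratLocalizedAt ℓ => (t : ℚ)) h
    simp only [Subring.coe_natCast, Subring.coe_zero] at h1
    exact q.den_ne_zero (by exact_mod_cast h1)
  · rw [map_natCast, map_intCast]
    have h1 : ((q.den : ℚ)) * q = (q.num : ℚ) := by
      rw [mul_comm]
      exact Rat.mul_den_eq_num q
    have h2 := congrArg (algebraMap ℚ Qb) h1
    rw [map_mul, map_natCast, map_intCast] at h2
    exact h2

instance faithfulSMul_ratLoc (ℓ : ℕ) : FaithfulSMul (GaloisRep.ratLocalizedAt ℓ) Qb := by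
  rw [faithfulSMul_iff_algebraMap_injective]
  intro a b hab
  have h1 : algebraMap ℚ Qb (a : ℚ) = algebraMap ℚ Qb (b : ℚ) := hab
  exact Subtype.ext ((algebraMap ℚ Qb).injective h1)

section Sink

variable (p : ℕ) [NeZero p] (ℓ : ℕ) [Fact ℓ.Prime] (k : ℕ)

/-- The action of `G_ℚ` on `J₀(p)[ℓ^k]`. -/
noncomputable def torsAct (σ : GQ) (v : ↥(Submodule.torsionBy ℤ (JZero p) ((ℓ : ℤ) ^ k))) :
    ↥(Submodule.torsionBy ℤ (JZero p) ((ℓ : ℤ) ^ k)) :=
  ⟨σ • (v : JZero p), by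
    have hv := v.2
    rw [Submodule.mem_torsionBy_iff] at hv ⊢
    rw [← smul_zero σ, ← hv, smul_comm]⟩

@[simp] theorem coe_torsAct (σ : GQ) (v : ↥(Submodule.torsionBy ℤ (JZero p) ((ℓ : ℤ) ^ k))) :
    ((torsAct p ℓ k σ v : ↥(Submodule.torsionBy ℤ (JZero p) ((ℓ : ℤ) ^ k))) : JZero p) =
      σ • (v : JZero p) := rfl

theorem torsAct_surjective (σ : GQ) : Function.Surjective (torsAct p ℓ k σ) := by
  intro v
  refine ⟨torsAct p ℓ k σ⁻¹ v, Subtype.ext ?_⟩
  rw [coe_torsAct, coe_torsAct, smul_inv_smul]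

theorem torsAct_zero (σ : GQ) : torsAct p ℓ k σ 0 = 0 :=
  Subtype.ext (by rw [coe_torsAct]; exact smul_zero σ)

/-- **The SINK of MOONSHOT S19.**  The frozen statement S19 follows from the finiteness of
`J₀(p)[ℓ^k]` and the existence of a finite, equivariant, point-separating, `Δ`- and `S`-stable
`ℤ_(ℓ)`-subalgebra of `(J₀(p)[ℓ^k] → ℚ̄)`. -/
theorem S19_of_order
    (hfinV : Finite ↥(Submodule.torsionBy ℤ (JZero p) ((ℓ : ℤ) ^ k)))
    (H : Subalgebra (GaloisRep.ratLocalizedAt ℓ)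
      (↥(Submodule.torsionBy ℤ (JZero p) ((ℓ : ℤ) ^ k)) → Qb))
    (hfin : Module.Finite (GaloisRep.ratLocalizedAt ℓ) H)
    (hequiv : ∀ h ∈ H, ∀ (σ : GQ) v, h (torsAct p ℓ k σ v) = σ (h v))
    (hsep : ∀ v w, (∀ h ∈ H, h v = h w) → v = w)
    (hΔ : ∀ h : H, ∃ t : H ⊗[GaloisRep.ratLocalizedAt ℓ] H,
      ∀ v w, pt₂ (ptH H v) (ptH H w) t = h.1 (v + w))
    (hS : ∀ h ∈ H, (fun v => h (-v)) ∈ H) :
    ∃ (H : Type) (_ : CommRing H) (_ : HopfAlgebra (GaloisRep.ratLocalizedAt ℓ) H),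
      Module.Finite (GaloisRep.ratLocalizedAt ℓ) H ∧ Module.Flat (GaloisRep.ratLocalizedAt ℓ) H ∧
      Coalgebra.IsCocomm (GaloisRep.ratLocalizedAt ℓ) H ∧
      ∃ e : WithConv (H →ₐ[GaloisRep.ratLocalizedAt ℓ] AlgebraicClosure ℚ) ≃
          ↥(Submodule.torsionBy ℤ (JZero p) ((ℓ : ℤ) ^ k)),
        (∀ f g, e (f * g) = e f + e g) ∧
        ∀ (σ : AlgebraicClosure ℚ ≃ₐ[ℚ] AlgebraicClosure ℚ)
          (f g : WithConv (H →ₐ[GaloisRep.ratLocalizedAt ℓ] AlgebraicClosure ℚ)),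
          (∀ h : H, g h = σ (f h)) → ((e g : JZero p)) = σ • (e f : JZero p) := by
  haveI := hfinV
  obtain ⟨H', i1, i2, h1, h2, h3, e, hadd, hact⟩ :=
    isFlatRealizable_of_order (φ := globalOp ℓ) (act := torsAct p ℓ k)
      (fixedIsFrac_globalOp ℓ) (torsAct_surjective p ℓ k) (torsAct_zero p ℓ k)
      H hfin (fun h hh σ v => hequiv h hh σ v) hsep hΔ hS
  refine ⟨H', i1, i2, h1, h2, h3, e, hadd, fun σ f g hfg => ?_⟩
  have hg : g = toConv ((globalOp ℓ σ).comp f.ofConv) := by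
    apply WithConv.ofConv_injective
    rw [ofConv_toConv]
    exact AlgHom.ext hfg
  rw [hg, hact σ f, coe_torsAct]

end Sink

end Fermat.Agent.FF2.Order
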