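import Mathlib
import Fermat.Agent.FF2.Order.S19Sink
import Fermat.Agent.FF2.Order.DeltaAdapter

/-!
# MOONSHOT S19: the typed SINK, tensor-free form (helper5)

The frozen statement S19 follows from the finiteness of `J₀(p)[ℓ^k]` and the existence of a
`ℤ_(ℓ)`-subalgebra `H` of `(J₀(p)[ℓ^k] → ℚ̄)` which is finitely generated as a module,
`G_ℚ`-equivariant, point-separating and `Δ`-stable in the tensor-free sense of
`Fermat.Agent.FF2.R2.IsDeltaStable` (no antipode hypothesis).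
-/

set_option autoImplicit false
set_option linter.unusedSectionVars false
set_option linter.style.haveILetI false

namespace Fermat.Agent.FF2.Order

open TensorProduct WithConv ModularCurve Fermat.Agent.TW.Hopf.Closure
  Fermat.Agent.TW.Hopf.Descent Fermat.Agent.TW.Hopf.DecompRing Fermat.Agent.FF2.R2

local notation "Qb" => AlgebraicClosure ℚ
local notation "GQ" => (AlgebraicClosure ℚ ≃ₐ[ℚ] AlgebraicClosure ℚ)

variable (p : ℕ) [NeZero p] (ℓ : ℕ) [Fact ℓ.Prime] (k : ℕ)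

theorem torsAct_add (σ : GQ) (v w : ↥(Submodule.torsionBy ℤ (JZero p) ((ℓ : ℤ) ^ k))) :
    torsAct p ℓ k σ (v + w) = torsAct p ℓ k σ v + torsAct p ℓ k σ w :=
  Subtype.ext (by
    rw [coe_torsAct, Submodule.coe_add, Submodule.coe_add, coe_torsAct, coe_torsAct, smul_add])

/-- **The SINK of MOONSHOT S19, tensor-free form.** -/
theorem S19_of_isDeltaStable
    (hfinV : Finite ↥(Submodule.torsionBy ℤ (JZero p) ((ℓ : ℤ) ^ k)))
    (H : Subalgebra (GaloisRep.ratLocalizedAt ℓ)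
      (↥(Submodule.torsionBy ℤ (JZero p) ((ℓ : ℤ) ^ k)) → Qb))
    (hfg : (Subalgebra.toSubmodule H).FG)
    (hequiv : ∀ h ∈ H, ∀ (σ : GQ) v, h (torsAct p ℓ k σ v) = σ (h v))
    (hsep : ∀ v w, (∀ h ∈ H, h v = h w) → v = w)
    (hΔ : IsDeltaStable H) :
    ∃ (H : Type) (_ : CommRing H) (_ : HopfAlgebra (GaloisRep.ratLocalizedAt ℓ) H),
      Module.Finite (GaloisRep.ratLocalizedAt ℓ) H ∧ Module.Flat (GaloisRep.ratLocalizedAt ℓ) H ∧
      Coalgebra.IsCocomm (GaloisRep.ratLocalizedAt ℓ) H ∧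
      ∃ e : WithConv (H →ₐ[GaloisRep.ratLocalizedAt ℓ] AlgebraicClosure ℚ) ≃
          ↥(Submodule.torsionBy ℤ (JZero p) ((ℓ : ℤ) ^ k)),
        (∀ f g, e (f * g) = e f + e g) ∧
        ∀ (σ : AlgebraicClosure ℚ ≃ₐ[ℚ] AlgebraicClosure ℚ)
          (f g : WithConv (H →ₐ[GaloisRep.ratLocalizedAt ℓ] AlgebraicClosure ℚ)),
          (∀ h : H, g h = σ (f h)) → ((e g : JZero p)) = σ • (e f : JZero p) := by
  haveI := hfinV
  obtain ⟨H', i1, i2, h1, h2, h3, e, hadd, hact⟩ :=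
    isFlatRealizable_of_isDeltaStable_of_add (φ := globalOp ℓ) (act := torsAct p ℓ k)
      (fixedIsFrac_globalOp ℓ) (torsAct_surjective p ℓ k) (torsAct_add p ℓ k)
      H (Module.Finite.iff_fg.mpr hfg) (fun h hh σ v => hequiv h hh σ v) hsep hΔ
  refine ⟨H', i1, i2, h1, h2, h3, e, hadd, fun σ f g hfg => ?_⟩
  have hg : g = toConv ((globalOp ℓ σ).comp f.ofConv) := by
    apply WithConv.ofConv_injective
    rw [ofConv_toConv]
    exact AlgHom.ext hfg
  rw [hg, hact σ f, coe_torsAct]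

end Fermat.Agent.FF2.Order
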